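import Mathlib
import Fermat.Agent.Lib.T1.Dict.CuspDvd
import Fermat.Agent.Lib.T1.Dict.KMod.Points
import Fermat.Agent.Lib.Igusa.ModPolyPsi
import Fermat.Agent.Lib.Igusa.DeltaQuotUnit
import Fermat.Agent.Lib.Igusa.RootStruct
import Fermat.Agent.Lib.T1.Inst.IntUp

/-!
# MAZUR (G), part PL: the place of `X₀(p)` over `ℚ̄` attached to a point of the upper half plane

* `mzgp_eval`: if `u ∈ ModField 𝕜 N` has the `q_N`-expansion of a holomorphic function `ψ`, then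
  `u - ψ(τ₀)` has positive order at the place `pointPlace 𝕜 N τ₀`.
* `mzgpU p`: the modular unit `U_p = p^12 Δ(q^p)/Δ(q)` in `modularFunctionFieldBar p`.
* `mzgp_place`: for `τ` with `j(τ) = j₁` and `p^12 Δ(pτ)/Δ(τ) = U₁` (`j₁, U₁ ∈ ℚ̄`) there is a place
  `x` of `modularFunctionFieldBar p` with `j(x) = j₁`, `U_p(x) = U₁`.
-/

set_option autoImplicit false
set_option linter.unusedSectionVars false
set_option synthInstance.maxHeartbeats 200000

namespace Fermat.Agent.Mazur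

open Fermat.Agent.T1.KMod
open Fermat.Agent.S24Lib (jFun ordAt holH ordValuation)
open scoped Manifold
open UpperHalfPlane WithZero ModularCurve ModularForm
open AlgebraicCurve Fermat.Agent.Curve Fermat.Agent.Igusa Fermat.Agent.T1
open Fermat.Agent.ES (IsQLaurentable qLaurent)

local notation "Qb" => AlgebraicClosure ℚ
local notation "Δ" => ModularForm.discriminant

section Eval

variable (𝕜 : Type) [Field 𝕜] [IsAlgClosed 𝕜] [Algebra 𝕜 ℂ] [Algebra ℚ 𝕜] (N : ℕ) [NeZero N]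

/-- **Evaluation at a point.**  If `u ∈ ModField 𝕜 N` has the same `q_N`-expansion as a holomorphic
function `ψ` on `ℍ`, then `u - ψ(τ₀)` vanishes at the place attached to `τ₀`. -/
theorem mzgp_eval (u : ModField 𝕜 N) (ψ : ℍ → ℂ) (hψ : IsQLaurentable N ψ)
    (hu : modFieldQL 𝕜 N u = qLaurent N ψ) (τ₀ : ℍ) (j₁ : 𝕜)
    (hj : algebraMap 𝕜 ℂ j₁ = jFun τ₀) (a : 𝕜) (ha : algebraMap 𝕜 ℂ a = ψ τ₀)
    (hne : u ≠ algebraMap 𝕜 (ModField 𝕜 N) a) :
    0 < (pointPlace 𝕜 N τ₀ j₁ hj).ord (u - algebraMap 𝕜 (ModField 𝕜 N) a) := by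
  obtain ⟨f, g, hg, rfl⟩ := IsFractionRing.div_surjective (A := modRing 𝕜 N) u
  have hg0 : g ≠ 0 := nonZeroDivisors.ne_zero hg
  have hgL : algebraMap (modRing 𝕜 N) (ModField 𝕜 N) g ≠ 0 := by simpa using hg0
  have hfQ := (modRing_props 𝕜 N f.2).1
  have hgQ := (modRing_props 𝕜 N g.2).1
  -- `f = ψ g` as functions
  have hfg : (f : ℍ → ℂ) = fun z => ψ z * (g : ℍ → ℂ) z := by
    have h1 : qLaurent N (f : ℍ → ℂ) = qLaurent N ψ * qLaurent N (g : ℍ → ℂ) := by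
      rw [← hu, map_div₀, modFieldQL_algebraMap 𝕜, modFieldQL_algebraMap 𝕜, modRingQL_apply 𝕜,
        modRingQL_apply 𝕜, div_mul_cancel₀]
      rw [← modRingQL_apply 𝕜]
      intro h0
      exact hg0 (modRingQL_injective 𝕜 N (h0.trans (map_zero _).symm))
    have h2 : qLaurent N (fun z => (f : ℍ → ℂ) z - ψ z * (g : ℍ → ℂ) z) = 0 := by
      rw [Fermat.Agent.ES.qLaurent_sub hfQ (hψ.mul hgQ), Fermat.Agent.ES.qLaurent_mul hψ hgQ, h1,
        sub_self]
    have h3 := (Fermat.Agent.ES.qLaurent_eq_zero_iff (hfQ.sub (hψ.mul hgQ))).mp h2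
    funext z
    have := congrFun h3 z
    simp only [Pi.zero_apply] at this
    exact sub_eq_zero.mp this
  -- the numerator of `u - a`
  set h : modRing 𝕜 N := f - algebraMap 𝕜 (modRing 𝕜 N) a * g with hh
  have hdiv : algebraMap (modRing 𝕜 N) (ModField 𝕜 N) f / algebraMap (modRing 𝕜 N) (ModField 𝕜 N) g
      - algebraMap 𝕜 (ModField 𝕜 N) a
      = algebraMap (modRing 𝕜 N) (ModField 𝕜 N) h / algebraMap (modRing 𝕜 N) (ModField 𝕜 N) g := by
    rw [hh, map_sub, map_mul, ← IsScalarTower.algebraMap_apply 𝕜 (modRing 𝕜 N) (ModField 𝕜 N)]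
    field_simp
  have hh0 : h ≠ 0 := by
    intro h0
    apply hne
    have := hdiv
    rw [h0, map_zero, zero_div] at this
    exact sub_eq_zero.mp this
  have hhL : algebraMap (modRing 𝕜 N) (ModField 𝕜 N) h ≠ 0 := by simpa using hh0
  rw [hdiv, pointPlace, S24Lib.fracPlace,
    placeOfValuation_ord_pos_iff _ _ _ _ (div_ne_zero hhL hgL),
    map_div₀, S24Lib.fracValuation_algebraMap, S24Lib.fracValuation_algebraMap]
  -- compare the point valuations of `h` and `g`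
  have hψm : MDiff ψ := hψ.mdiff
  let Ψ : holH := ⟨fun z => ψ z - algebraMap 𝕜 ℂ a, hψm.sub mdifferentiable_const⟩
  have hmul : modRingToHol 𝕜 N h = Ψ * modRingToHol 𝕜 N g := by
    apply Subtype.ext
    funext z
    show (h : ℍ → ℂ) z = (ψ z - algebraMap 𝕜 ℂ a) * (g : ℍ → ℂ) z
    have h1 : (h : ℍ → ℂ) z = (f : ℍ → ℂ) z - algebraMap 𝕜 ℂ a * (g : ℍ → ℂ) z := rfl
    rw [h1, hfg]
    ring
  have hΨ0 : Ψ ≠ 0 := by
    intro h0
    rw [h0, zero_mul] at hmul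
    exact hh0 (modRingToHol_injective 𝕜 N (hmul.trans (map_zero _).symm))
  have hΨlt : ordValuation τ₀ Ψ < 1 := by
    rw [S24Lib.ordValuation_apply hΨ0, ← exp_zero, exp_lt_exp]
    have h1 : ordAt (Ψ : ℍ → ℂ) τ₀ ≠ 0 := by
      rw [Ne, S24Lib.ordAt_eq_zero_iff Ψ.2]
      show ¬ (ψ τ₀ - algebraMap 𝕜 ℂ a ≠ 0)
      rw [ha, sub_self]
      simp
    have h2 : ordAt (Ψ : ℍ → ℂ) τ₀ ≠ ⊤ := S24Lib.ordAt_ne_top hΨ0 τ₀
    have h3 : (ordAt (Ψ : ℍ → ℂ) τ₀).toNat ≠ 0 := by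
      rw [Ne, ENat.toNat_eq_zero]
      tauto
    omega
  have hwg : pointValuation 𝕜 N τ₀ g ≠ 0 := fun h0 => hg0 (pointValuation_eq_zero 𝕜 N τ₀ g h0)
  have hwh : pointValuation 𝕜 N τ₀ h = ordValuation τ₀ Ψ * pointValuation 𝕜 N τ₀ g := by
    show ordValuation τ₀ (modRingToHol 𝕜 N h) = _
    rw [hmul, map_mul]
    rfl
  rw [hwh, mul_div_assoc, div_self hwg, mul_one]
  exact hΨlt

end Eval

section Unit

open Fermat.Agent.S24Lib in
/-- the modular unit `U_p = p^12 Δ(q^p)/Δ(q)` as an element of the function field of `X₀(p)` over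
`ℚ̄` -/
noncomputable def mzgpU (p : ℕ) [NeZero p] : ↥(modularFunctionFieldBar p) :=
  ⟨coeffEmb Qb (unitInfLS ℚ p),
    coeffEmb_mem_laurentBaseChange Qb (unitInfLS_mem_full p (dvd_refl p))⟩

theorem coe_mzgpU (p : ℕ) [NeZero p] :
    ((mzgpU p : ↥(modularFunctionFieldBar p)) : LaurentSeries Qb) = coeffEmb Qb (unitInfLS ℚ p) :=
  rfl

open Fermat.Agent.S24Lib in
/-- the complex `q`-expansion of `U_p` -/
theorem mzgp_coeffMap_U (p : ℕ) [NeZero p] :
    coeffMap (algebraMap Qb ℂ) ((mzgpU p : ↥(modularFunctionFieldBar p)) : LaurentSeries Qb)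
      = lsMapHom (Int.castRingHom ℂ) (unitInfLS ℤ p) := by
  rw [coe_mzgpU, coeffEmb, coeffMap_coeffMap, lsMapHom_unitInfLS,
    ← lsMapHom_unitInfLS (algebraMap ℚ ℂ) p]
  ext n
  show (algebraMap Qb ℂ) (algebraMap ℚ Qb ((unitInfLS ℚ p).coeff n)) = _
  rw [algebraMap_Kbar_complex, iotaC_algebraMap]
  rfl

/-- `ψ_∞(τ) = p^12 Δ(pτ)/Δ(τ)` -/
theorem mzgp_psiInf_apply (p : ℕ) [NeZero p] (τ τ' : ℍ) (hτ' : (τ' : ℂ) = p * τ) :
    psiInf p τ = (p : ℂ) ^ 12 * Δ τ' * (Δ τ)⁻¹ := by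
  rw [psiInf, uMat_upper_apply _ _ _ one_pos]
  have : Fermat.Agent.S22Lib.intGL !![((p : ℕ) : ℤ), 0; 0, 1] (det_phiInf p) • τ = τ' := by
    apply UpperHalfPlane.ext
    rw [Fermat.Agent.S22Lib.coe_intGL_upper_smul, hτ']
    push_cast
    ring
  rw [this]
  push_cast
  rfl

open Fermat.Agent.S24Lib in
/-- `U_p` is not constant -/
theorem mzgp_U_ne_const {p : ℕ} [NeZero p] (hp : 2 ≤ p) (a : Qb) :
    ((modIso Qb p (mzgpU p) : anField Qb p) : ModField Qb p) ≠ algebraMap Qb (ModField Qb p) a := by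
  intro h
  have h1 := congrArg (modFieldQL Qb p) h
  rw [modFieldQL_modIso Qb, mzgp_coeffMap_U, modFieldQL_algebraMap_const Qb, lsMapHom_unitInfLS,
    ← qExpand_C (N := p)] at h1
  have h2 := qExpand_injective (R := ℂ) (N := p) h1
  have h3 : (unitInfLS ℂ p).coeff 0 = 0 :=
    unitInfLS_coeff_eq_zero_of_lt (k := ℂ) p (by
      have : (2 : ℤ) ≤ (p : ℤ) := by exact_mod_cast hp
      omega)
  rw [h2, HahnSeries.C_apply, HahnSeries.coeff_single_same] at h3
  rw [h3, map_zero] at h2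
  exact unitInfLS_ne_zero (k := ℂ) p (by exact_mod_cast NeZero.ne p) h2

open Fermat.Agent.S24Lib in
/-- **(PL)** the place of `X₀(p)` over `ℚ̄` attached to a point `τ` of the upper half plane with
`j(τ) = j₁` and `p^12 Δ(pτ)/Δ(τ) = U₁`, `j₁, U₁ ∈ ℚ̄`. -/
theorem mzgp_place {p : ℕ} [NeZero p] (hp : 2 ≤ p) (τ τ' : ℍ) (hτ' : (τ' : ℂ) = p * τ)
    (j₁ U₁ : Qb) (hj : algebraMap Qb ℂ j₁ = jFun τ)
    (hU : (p : ℂ) ^ 12 * Δ τ' = algebraMap Qb ℂ U₁ * Δ τ) :
    ∃ x : Place Qb ↥(modularFunctionFieldBar p),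
      0 < x.ord (tbJ p - algebraMap Qb ↥(modularFunctionFieldBar p) j₁) ∧
      0 < x.ord (mzgpU p - algebraMap Qb ↥(modularFunctionFieldBar p) U₁) := by
  set x₀ := pointPlace Qb p τ j₁ hj with hx₀
  obtain ⟨e, he, hord⟩ := exists_ord_barPlace Qb p x₀
  refine ⟨barPlace Qb p x₀, ?_, ?_⟩
  · have h1 := hord (tbJ p - algebraMap Qb ↥(modularFunctionFieldBar p) j₁)
    have h2 : ((modIso Qb p (tbJ p - algebraMap Qb ↥(modularFunctionFieldBar p) j₁) : anField Qb p)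
        : ModField Qb p) = jL Qb p - algebraMap Qb (ModField Qb p) j₁ := by
      rw [map_sub, AlgEquiv.commutes]
      have : tbJ p = jBar Qb p := rfl
      rw [this]
      show ((modIso Qb p (jBar Qb p) : anField Qb p) : ModField Qb p) - _ = _
      rw [modIso_jBar Qb]
      rfl
    rw [h2] at h1
    have h3 := pointPlace_ord_pos Qb p τ j₁ hj
    rw [← hx₀, h1] at h3
    exact (pos_iff_pos_of_mul_pos h3).mp (by exact_mod_cast he)
  · have h1 := hord (mzgpU p - algebraMap Qb ↥(modularFunctionFieldBar p) U₁)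
    have h2 : ((modIso Qb p (mzgpU p - algebraMap Qb ↥(modularFunctionFieldBar p) U₁) :
        anField Qb p) : ModField Qb p)
        = ((modIso Qb p (mzgpU p) : anField Qb p) : ModField Qb p)
          - algebraMap Qb (ModField Qb p) U₁ := by
      rw [map_sub, AlgEquiv.commutes]
      rfl
    rw [h2] at h1
    have hψ := psiInf_qLaurent p
    have hval : algebraMap Qb ℂ U₁ = psiInf p τ := by
      rw [mzgp_psiInf_apply p τ τ' hτ', hU]
      field_simp [discriminant_ne_zero τ]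
    have h3 := mzgp_eval Qb p _ (psiInf p) hψ.1
      (by rw [modFieldQL_modIso Qb, mzgp_coeffMap_U, hψ.2]) τ j₁ hj U₁ hval (mzgp_U_ne_const hp U₁)
    rw [← hx₀, h1] at h3
    exact (pos_iff_pos_of_mul_pos h3).mp (by exact_mod_cast he)

end Unit

end Fermat.Agent.Mazur
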